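import Fermat.Agent.S56.Defs

/-!
# S56 / G3, WP G3-SL2 : the adjoint action of a regular semisimple `g ∈ M₂(k)` (pure matrix algebra, Mathlib only).

`g` with `charpoly g = (X - α)(X - β)`, `α ≠ β`, `2 ≠ 0`, `g * gi = 1`.  Put `s = α + β = tr g`, `h₀ := 2 g - s`.
* `tr h₀ = 0`; `h₀` commutes with `g`; Cayley-Hamilton `g² - s g + αβ = 0` gives `h₀² = (α - β)²`, `tr h₀² = 2 (α - β)² ≠ 0`.
* commutant: `w` with `tr w = 0`, `g w = w g` is `t h₀`.  [e.g. entrywise: `Matrix.eta_fin_two`; `g` is not scalar; or: `h₀ w = w h₀`, and for trace zero matrices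
  `h₀ w + w h₀ = tr(h₀ w)`, so `2 h₀ w = tr(h₀ w)`, multiply by `h₀`: `2 (α-β)² w = tr(h₀ w) h₀`.]
* `w` with `tr w = 0 = tr (h₀ w)`: then `h₀ w = - w h₀`, so `g w = w (s - g) = w g'`, `g' := s - g = αβ gi` (adjugate).  Look for `w' = w m`, `m = x + y g`:
  `g w' gi - w' = w (g' m gi - m)`;   `g' gi - 1 = (s - 2 g) gi = - h₀ gi`, so with `m := - g h₀ / (α-β)²` (commutes with `g`): `g' m gi - m = (g' gi - 1) m = h₀ gi g h₀ / (α-β)² = 1`.
  `tr (w m) = 0`: `w g h₀ = w (h₀ + s) h₀ / 2 = ((α-β)² w + s w h₀)/2` has trace `0`.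
  So `w' := - (α-β)⁻² • w g h₀`.
-/

set_option autoImplicit false

open Polynomial

namespace Fermat.Agent.S56.G3

variable {k : Type} [Field k]

theorem sl2_key (a b c d x y z : k) (hT : (a - d) * x + b * z + c * y = 0) :
    ((a - d) ^ 2 + 4 * b * c) • ((!![x, y; z, -x] : M2 k) * !![a, b; c, d]) =
      !![x, y; z, -x] * !![a, b; c, d] * !![a - d, 2 * b; 2 * c, d - a] * !![a, b; c, d] -
        !![a, b; c, d] * (!![x, y; z, -x] * !![a, b; c, d] * !![a - d, 2 * b; 2 * c, d - a]) := by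
  ext i j
  fin_cases i <;> fin_cases j
  · simp
    linear_combination (a * (a - d) + 2 * b * c) * hT
  · simp
    linear_combination (2 * a * b - b * (a - d)) * hT
  · simp
    linear_combination (c * (a - d) + 2 * c * d) * hT
  · simp
    linear_combination (2 * b * c - d * (a - d)) * hT

/-- **[G3-SL2]** -/
theorem exists_h0 (h2 : (2 : k) ≠ 0) (g gi : M2 k) (hgi : g * gi = 1) (α β : k) (hαβ : α ≠ β)
    (hg : g.charpoly = (X - C α) * (X - C β)) :
    ∃ h₀ : M2 k, h₀.trace = 0 ∧ (∃ x y : k, h₀ = x • g + y • (1 : M2 k)) ∧ (h₀ * h₀).trace ≠ 0 ∧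
      (∀ w : M2 k, w.trace = 0 → g * w = w * g → ∃ t : k, w = t • h₀) ∧
      (∀ w : M2 k, w.trace = 0 → (h₀ * w).trace = 0 →
        ∃ w' : M2 k, w'.trace = 0 ∧ w = g * w' * gi - w') := by
  obtain ⟨a, b, c, d, rfl⟩ : ∃ a b c d, g = !![a, b; c, d] :=
    ⟨g 0 0, g 0 1, g 1 0, g 1 1, Matrix.eta_fin_two g⟩
  rw [Matrix.charpoly_fin_two] at hg
  have hα := congrArg (Polynomial.eval α) hg
  have hβ := congrArg (Polynomial.eval β) hg
  simp [Matrix.trace_fin_two, Matrix.det_fin_two] at hα hβ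
  have hαβ' : α - β ≠ 0 := sub_ne_zero.2 hαβ
  have htr : a + d = α + β := by
    apply mul_left_cancel₀ hαβ'
    linear_combination hβ - hα
  have hdet : a * d - b * c = α * β := by
    linear_combination hα + α * htr
  have hΔ : (a - d) ^ 2 + 4 * b * c = (α - β) ^ 2 := by
    linear_combination (a + d + α + β) * htr - 4 * hdet
  have hΔ0 : (a - d) ^ 2 + 4 * b * c ≠ 0 := by
    rw [hΔ]
    exact pow_ne_zero 2 hαβ'
  refine ⟨!![a - d, 2 * b; 2 * c, d - a], ?_, ⟨2, -(a + d), ?_⟩, ?_, ?_, ?_⟩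
  · simp [Matrix.trace_fin_two]
  · ext i j
    fin_cases i <;> fin_cases j <;> simp <;> ring
  · have h3 : ((!![a - d, 2 * b; 2 * c, d - a] : M2 k) * !![a - d, 2 * b; 2 * c, d - a]).trace =
        2 * ((a - d) ^ 2 + 4 * b * c) := by
      simp [Matrix.trace_fin_two]
      ring
    rw [h3]
    exact mul_ne_zero h2 hΔ0
  · intro w hw hcomm
    obtain ⟨x, y, z, u, rfl⟩ : ∃ x y z u, w = !![x, y; z, u] :=
      ⟨w 0 0, w 0 1, w 1 0, w 1 1, Matrix.eta_fin_two w⟩
    have hu : u = -x := by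
      simp [Matrix.trace_fin_two] at hw
      linear_combination hw
    subst hu
    have e11 := congrFun (congrFun hcomm 0) 0
    have e12 := congrFun (congrFun hcomm 0) 1
    have e21 := congrFun (congrFun hcomm 1) 0
    simp at e11 e12 e21
    obtain ⟨t, ht⟩ : ∃ t, t * ((a - d) ^ 2 + 4 * b * c) = (a - d) * x + b * z + c * y :=
      ⟨_, div_mul_cancel₀ _ hΔ0⟩
    refine ⟨t, ?_⟩
    ext i j
    fin_cases i <;> fin_cases j
    · simp
      apply mul_right_cancel₀ hΔ0
      linear_combination b * e21 - c * e12 - (a - d) * ht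
    · simp
      apply mul_right_cancel₀ hΔ0
      linear_combination (a - d) * e12 - 2 * b * e11 - 2 * b * ht
    · simp
      apply mul_right_cancel₀ hΔ0
      linear_combination (-(a - d)) * e21 + 2 * c * e11 - 2 * c * ht
    · simp
      apply mul_right_cancel₀ hΔ0
      linear_combination (-b) * e21 + c * e12 - (d - a) * ht
  · intro w hw hT
    obtain ⟨x, y, z, u, rfl⟩ : ∃ x y z u, w = !![x, y; z, u] :=
      ⟨w 0 0, w 0 1, w 1 0, w 1 1, Matrix.eta_fin_two w⟩
    have hu : u = -x := by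
      simp [Matrix.trace_fin_two] at hw
      linear_combination hw
    subst hu
    have hT' : (a - d) * x + b * z + c * y = 0 := by
      simp [Matrix.trace_fin_two] at hT
      apply mul_left_cancel₀ h2
      linear_combination hT
    have hkey := sl2_key a b c d x y z hT'
    set Δ := (a - d) ^ 2 + 4 * b * c with hΔdef
    set g : M2 k := !![a, b; c, d] with hgdef
    set w : M2 k := !![x, y; z, -x] with hwdef
    set h₀ : M2 k := !![a - d, 2 * b; 2 * c, d - a] with hh₀def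
    refine ⟨(-Δ⁻¹) • (w * g * h₀), ?_, ?_⟩
    · rw [Matrix.trace_smul]
      have h3 : (w * g * h₀).trace = 0 := by
        simp [hwdef, hgdef, hh₀def, Matrix.trace_fin_two]
        linear_combination (a + d) * hT'
      rw [h3, smul_zero]
    · have h3 : (w + (-Δ⁻¹) • (w * g * h₀)) * g = g * ((-Δ⁻¹) • (w * g * h₀)) := by
        have h4 : w * g = Δ⁻¹ • (w * g * h₀ * g - g * (w * g * h₀)) := by
          rw [← hkey, smul_smul, inv_mul_cancel₀ hΔ0, one_smul]
        rw [add_mul, Matrix.smul_mul, Matrix.mul_smul]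
        nth_rewrite 1 [h4]
        rw [smul_sub, neg_smul, neg_smul]
        abel
      calc w = (w + (-Δ⁻¹) • (w * g * h₀)) * (g * gi) - (-Δ⁻¹) • (w * g * h₀) := by
            rw [hgi, mul_one, add_sub_cancel_right]
        _ = g * ((-Δ⁻¹) • (w * g * h₀)) * gi - (-Δ⁻¹) • (w * g * h₀) := by
            rw [← mul_assoc, h3]

end Fermat.Agent.S56.G3
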