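import Fermat.Agent.S56.G3.Pair
import Fermat.Agent.S56.G3.Sl2

/-!
# S56 / (G3) : right non-degeneracy of the local pairing `H¹(D_q,W) × H¹(D_q,W') → H²(D_q,μ_p)` at a Taylor-Wiles prime `q`.

`q ≠ p`, `p ∣ q - 1`, `ρ̄` unramified at `q`, `ρ̄(φ)` has eigenvalues `α ≠ β` in `k` (`φ` a Frobenius).  `t : k →+ ZMod p` nonzero.
(M0) `cycloChar p = 1` on `D_q` (`cycloChar_eq_one_of_mem_decomp`), so `chiK p k = 1` on `D_q` and `adTw p rbar σ = adRep rbar σ` for `σ ∈ D_q`.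
(M1) `h₀` of `exists_h0` for `g = rbar φ`, `gi = rbar φ⁻¹`.
(M2) `σ ∈ D_q` ⟹ `rbar σ = rbar φ ^ n`  [`hcont`: `rbar` factors through `L`; `exists_frob_pow_mul_inertia`: `σ = φ^n τ` on `L`, so `rbar σ = rbar (φ^n τ) = rbar φ ^ n`].
     Hence `rbar σ` commutes with `h₀ = x rbar φ + y`.
(M3) `c ∈ Z1loc (adRep rbar) q`, `σ ∈ I_q` ⟹ `c σ` commutes with `rbar φ`  [LOC-Q (1),(2): `h : I →* Multiplicative (sl2 k)`, `h σ = ofAdd (c σ)` (hom because `I` acts trivially);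
     `tame_frob` with `N = p`: `c (φ σ φ⁻¹) = q • c σ = c σ` (`(q : k) = 1`); cocycle relation: `c (φ σ φ⁻¹) = φ · c σ`].
(M4) for `α ∈ Hom(D_q,𝔽_p)`, `l ∈ k`: `a := α • l • h₀ ∈ Z1loc (adRep rbar) q`, and `t ((a ∪ b)(g,h)) = α g * t (l * tr (h₀ b h))`; `f_l := t (l * tr (h₀ b ·)) ∈ Hom(D_q,𝔽_p)`.
     `ld0_decomp`: `f_l = 0` for all `l`; `t ≠ 0` ⟹ `tr (h₀ b h) = 0` for all `h`.
(M5) `σ ∈ I`: `b σ = s h₀` ((M3) + commutant), `0 = tr (h₀ b σ) = s tr h₀²`, so `b = 0` on `I`.  `tr (h₀ b φ) = 0` ⟹ `b φ = φ w' - w'`.  `b - d w'` vanishes on `I` and at `φ`: `eq_zero_of_unramified`.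
-/

set_option autoImplicit false

open ExtCitation Polynomial

namespace Fermat.Agent.S56

open CFT (levS levAll decomp Z1 B1 B2 Qb chiRep cup11)

variable {p : ℕ} [Fact p.Prime] {k : Type} [Field k] [Finite k] [CharP k p]

namespace G3

/-- `t ≠ 0` detects `0` -/
theorem eq_zero_of_forall_t {t : k →+ ZMod p} (ht : t ≠ 0) {x : k} (h : ∀ l : k, t (l * x) = 0) :
    x = 0 := by
  by_contra hx
  apply ht
  ext y
  have := h (y * x⁻¹)
  rwa [mul_assoc, inv_mul_cancel₀ hx, mul_one] at this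

end G3

open G3

theorem G3.isSmooth_adRep' (rbar : GQ →* M2 k) (hcont : GaloisFactorsThroughFiniteLevel rbar) :
    CFT.IsSmooth levAll (adRep rbar) := by
  obtain ⟨L, hL, h⟩ := hcont
  obtain ⟨U, hU, hle⟩ := CFT.exists_levAll_le L
  intro w
  refine ⟨U, hU, fun s hs => ?_⟩
  have h1 : ∀ s ∈ U, rbar s = 1 := fun s hs => h s fun x hx =>
    (IntermediateField.mem_fixingSubgroup_iff _ _).1 (hle hs) x hx
  apply Subtype.ext
  rw [adRep_apply_coe, h1 s hs, h1 s⁻¹ (U.inv_mem hs), one_mul, mul_one]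

/-- **(G3-Fp)** -/
theorem G3_Fp (h2 : (2 : k) ≠ 0) (rbar : GQ →* M2 k) (hcont : GaloisFactorsThroughFiniteLevel rbar)
    (q : Nat.Primes) (hqp : (q : ℕ) ≠ p) (hq1 : p ∣ (q : ℕ) - 1)
    (hur : ∀ σ ∈ inert q, rbar σ = 1) (φ : GQ) (hφ : (primeLocalPlace q).IsFrobeniusAt φ (q : ℕ))
    (α β : k) (hαβ : α ≠ β) (hchar : (rbar φ).charpoly = (X - C α) * (X - C β))
    (t : k →+ ZMod p) (ht : t ≠ 0) {b : ↥(decomp q) → sl2 k} (hb : b ∈ Z1loc (adTw p rbar) q)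
    (H : ∀ a ∈ Z1loc (adRep rbar) q,
      (fun g => t (cup11 (locRep (adTw p rbar) q) (trP k) a b g)) ∈ B2 (lq q) (muq p q)) :
    b ∈ B1loc (adTw p rbar) q := by
  have hφD : φ ∈ decomp q := hφ.mem_decompositionSubgroup
  have hloc := locRep_adTw_eq (p := p) rbar q hq1
  have hb' : b ∈ Z1loc (adRep rbar) q := by
    have h1 := hb
    unfold Z1loc at h1 ⊢
    rwa [hloc] at h1
  suffices hs : b ∈ B1loc (adRep rbar) q by
    unfold B1loc at hs ⊢
    rwa [hloc]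
  obtain ⟨h₀, htr, ⟨x, y, hxy⟩, htr2, hcomm, hdec⟩ :=
    exists_h0 h2 (rbar φ) (rbar φ⁻¹) (rbar_mul_inv rbar φ) α β hαβ hchar
  set H0 : sl2 k := ⟨h₀, htr⟩ with hH0
  have hinv : ∀ σ ∈ decomp q, rbar σ * h₀ = h₀ * rbar σ := by
    intro σ hσ
    obtain ⟨n, hn⟩ := exists_pow_of_mem_decomp rbar hcont q hur φ hφ hσ
    rw [hn, hxy]
    simp only [mul_add, add_mul, Matrix.mul_smul, Matrix.smul_mul, mul_one, one_mul, ← pow_succ,
      ← pow_succ']
  -- the trace pairing with `h₀` kills `b`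
  have hzero : ∀ g, trP k H0 (b g) = 0 := by
    intro g
    apply eq_zero_of_forall_t ht
    intro l
    have hh : ∀ σ ∈ decomp q, rbar σ * ((l • H0 : sl2 k) : M2 k) =
        ((l • H0 : sl2 k) : M2 k) * rbar σ := by
      intro σ hσ
      rw [Submodule.coe_smul, Matrix.mul_smul, Matrix.smul_mul]
      exact congrArg _ (hinv σ hσ)
    have hf := t_trP_mem_Z1 rbar q hq1 t hh hb'
    have h0 := ld0_decomp q hq1 hf (fun a ha => by
      rw [← t_cup11_aOf rbar q hq1 t a hh b]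
      exact H _ (aOf_mem_Z1loc rbar q hq1 ha hh))
    have h1 := congrFun h0 g
    simpa using h1
  -- `b = 0` on inertia
  have hI : ∀ σ : ↥(decomp q), (σ : GQ) ∈ inert q → b σ = 0 := by
    intro σ hσ
    have h1 := commute_of_mem_inert rbar q hqp hq1 hur φ hφ hb' σ hσ
    obtain ⟨s, hs⟩ := hcomm (b σ) (b σ).2 h1
    have h3 := hzero σ
    rw [trP_apply, hs, Matrix.mul_smul, Matrix.trace_smul, smul_eq_mul] at h3
    have hs0 : s = 0 := (mul_eq_zero.1 h3).resolve_right htr2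
    apply Subtype.ext
    rw [hs, hs0, zero_smul]
    rfl
  obtain ⟨w', hw'tr, hw'⟩ := hdec (b ⟨φ, hφD⟩) (b ⟨φ, hφD⟩).2 (hzero _)
  set W' : sl2 k := ⟨w', hw'tr⟩ with hW'
  have hsm := isSmooth_adRep' rbar hcont
  have hdW : CFT.d01 (locRep (adRep rbar) q) W' ∈ B1loc (adRep rbar) q := ⟨W', rfl⟩
  have hc : b - CFT.d01 (locRep (adRep rbar) q) W' ∈ Z1loc (adRep rbar) q :=
    sub_mem hb' (B1loc_le_Z1loc _ hsm q hdW)
  have hfin := eq_zero_of_unramified (adRep rbar) q hφ hφD hc (fun σ hσ => by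
    rw [Pi.sub_apply, hI σ hσ, zero_sub, neg_eq_zero]
    apply Subtype.ext
    have h1 : rbar (σ : GQ) = 1 := hur _ hσ
    have h2 : rbar (σ : GQ)⁻¹ = 1 := hur _ ((inert q).inv_mem hσ)
    simp [CFT.d01_apply, h1, h2]) (by
    rw [Pi.sub_apply, sub_eq_zero]
    apply Subtype.ext
    rw [hw']
    simp [CFT.d01_apply, hW'])
  rw [sub_eq_zero] at hfin
  rw [hfin]
  exact hdW

/-- a nonzero additive map `k → 𝔽_p` -/
theorem G3.exists_t (p : ℕ) [Fact p.Prime] (k : Type) [Field k] [CharP k p] :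
    ∃ t : k →+ ZMod p, t ≠ 0 := by
  let _ : Algebra (ZMod p) k := ZMod.algebra k p
  by_contra hcon
  push Not at hcon
  have h1 : (1 : k) = 0 := (Module.forall_dual_apply_eq_zero_iff (ZMod p) (1 : k)).1 fun f => by
    have := hcon f.toAddMonoidHom
    exact congrArg (fun t : k →+ ZMod p => t 1) this
  exact one_ne_zero h1

/-- `t ∘ ·` maps `B²(D_q,k(1))` to `B²(D_q,μ_p)` -/
theorem G3.t_comp_mem_B2 (q : Nat.Primes) (t : k →+ ZMod p) {c : ↥(decomp q) × ↥(decomp q) → k}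
    (hc : c ∈ B2 (lq q) (chiRep ((chiK p k).comp (decomp q).subtype))) :
    (fun g => t (c g)) ∈ B2 (lq q) (muq p q) := by
  obtain ⟨e, he, rfl⟩ := hc
  refine ⟨fun g => t (e g), he.comp t, ?_⟩
  funext g
  simp only [CFT.d12_apply, chiRep, Representation.twist_apply_apply, map_add, map_sub, smul_eq_mul]
  congr 2
  exact (map_cast_mul t _ _).symm

/-- **(G3-k)** -/
theorem G3_k (h2 : (2 : k) ≠ 0) (rbar : GQ →* M2 k) (hcont : GaloisFactorsThroughFiniteLevel rbar)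
    (q : Nat.Primes) (hqp : (q : ℕ) ≠ p) (hq1 : p ∣ (q : ℕ) - 1)
    (hur : ∀ σ ∈ inert q, rbar σ = 1) (φ : GQ) (hφ : (primeLocalPlace q).IsFrobeniusAt φ (q : ℕ))
    (α β : k) (hαβ : α ≠ β) (hchar : (rbar φ).charpoly = (X - C α) * (X - C β))
    {b : ↥(decomp q) → sl2 k} (hb : b ∈ Z1loc (adTw p rbar) q)
    (H : ∀ a ∈ Z1loc (adRep rbar) q, cup11 (locRep (adTw p rbar) q) (trP k) a b ∈
      B2 (lq q) (chiRep ((chiK p k).comp (decomp q).subtype))) :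
    b ∈ B1loc (adTw p rbar) q := by
  obtain ⟨t, ht⟩ := exists_t p k
  exact G3_Fp h2 rbar hcont q hqp hq1 hur φ hφ α β hαβ hchar t ht hb
    (fun a ha => t_comp_mem_B2 q t (H a ha))

end Fermat.Agent.S56
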