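import Fermat.Agent.CFT.LS.Cores
import Fermat.Agent.CFT.LS.Inst

/-!
# S56 / G3, WP G3-CUP : cup products of `ZMod p`-valued characters versus cyclic classes (formal).

`G` acts on `Ω` (`IsGalAct Ω 𝒰`), `ζ` a primitive `p`-th root of unity, `χ : G →* (ZMod p)ˣ` the cyclotomic character
(`hχ`).  `cupF a b (g,h) = a g * b h`.

[CUP-CYC] `f : G → ZMod p` with Kummer generator `b` (`g b / b = ζ ^ f g`), `α : G →* Multiplicative (ZMod p)` smooth.
 Put `e g := b ^ [α g]` (`[·] = ZMod.val`), a level-constant 1-cochain of `uRep G Ω` (`comp_char_mem_C1`).  Then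
 `(d e)(g,h) = (g b)^[α h] * b^[α g] / b^[α (g h)] = (g b / b)^[α h] * b^([α g] + [α h] - [α g + α h]) = ζ^(f g * α h) * (b^p)^(carry (α g) (α h))`
 i.e. `d12 (uRep G Ω) e = muEmb ζ ∘ cupF f α + cyc α (b ^ p)` (`val_add_val`, Br/Cyc.lean).
 So `cupF f α ∈ B2 (chiRep χ)` ⟹ (`muEmb_comp_mem_B2`) `cyc α (b^p) ∈ B2 (uRep G Ω)`.
[ANTI] `χ = 1`, `f, f'` additive: `d12 (fun g => f g * f' g) (g,h) = - (f g * f' h + f' g * f h)`.
-/

set_option autoImplicit false

namespace Fermat.Agent.S56.G3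

open Fermat.Agent.CFT Fermat.Agent.CFT.Br

variable {G : Type} [Group G] {𝒰 : Levels G} {p : ℕ} [Fact p.Prime]

/-- the cup product of two `ZMod p`-valued functions (trivial action) -/
def cupF (a b : G → ZMod p) : G × G → ZMod p := fun g => a g.1 * b g.2

/-- the function attached to a character -/
def toFn (α : G →* Multiplicative (ZMod p)) : G → ZMod p := fun g => (α g).toAdd

section Triv

variable {χ : G →* (ZMod p)ˣ} (hχ1 : ∀ g, χ g = 1)
include hχ1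

lemma chiRep_apply_of_triv (g : G) (x : ZMod p) : chiRep χ g x = x := by
  simp [chiRep, Representation.twist_apply_apply, hχ1 g]

/-- cocycles for the trivial action are additive -/
lemma map_mul_of_mem_Z1 {f : G → ZMod p} (hf : f ∈ Z1 𝒰 (chiRep χ)) (g h : G) :
    f (g * h) = f g + f h := by
  have h1 := congrFun (LinearMap.mem_ker.1 hf.1) (g, h)
  simp only [d12_apply, chiRep_apply_of_triv hχ1, Pi.zero_apply] at h1
  linear_combination -h1

/-- a cocycle for the trivial action, as a character -/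
def toChar {f : G → ZMod p} (hf : f ∈ Z1 𝒰 (chiRep χ)) : G →* Multiplicative (ZMod p) where
  toFun g := Multiplicative.ofAdd (f g)
  map_one' := by
    have := map_mul_of_mem_Z1 hχ1 hf 1 1
    rw [mul_one] at this
    have h0 : f 1 = 0 := by linear_combination -this
    rw [h0]; rfl
  map_mul' g h := by rw [map_mul_of_mem_Z1 hχ1 hf g h]; rfl

lemma toFn_toChar {f : G → ZMod p} (hf : f ∈ Z1 𝒰 (chiRep χ)) : toFn (toChar hχ1 hf) = f := rfl

lemma isSmoothChar_toChar {f : G → ZMod p} (hf : f ∈ Z1 𝒰 (chiRep χ)) :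
    IsSmoothChar 𝒰 (toChar hχ1 hf) := by
  obtain ⟨U, hU, h⟩ := hf.2
  refine ⟨U, hU, fun s hs => ?_⟩
  have h1 := h 1 s hs
  rw [one_mul] at h1
  change Multiplicative.ofAdd (f s) = 1
  rw [h1]
  exact (toChar hχ1 hf).map_one

lemma toFn_mem_Z1 {α : G →* Multiplicative (ZMod p)} (hα : IsSmoothChar 𝒰 α) :
    toFn α ∈ Z1 𝒰 (chiRep χ) := by
  refine ⟨LinearMap.mem_ker.2 ?_, comp_char_mem_C1 hα (fun c => c.toAdd)⟩
  funext g
  simp only [d12_apply, chiRep_apply_of_triv hχ1, Pi.zero_apply, toFn, map_mul, toAdd_mul]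
  ring

/-- [ANTI] -/
theorem cupF_add_swap_mem_B2 {f f' : G → ZMod p} (hf : f ∈ Z1 𝒰 (chiRep χ))
    (hf' : f' ∈ Z1 𝒰 (chiRep χ)) : cupF f f' + cupF f' f ∈ B2 𝒰 (chiRep χ) := by
  refine ⟨fun g => -(f g * f' g), ?_, ?_⟩
  · obtain ⟨U, hU, h⟩ := hf.2
    obtain ⟨U', hU', h'⟩ := hf'.2
    obtain ⟨W, hW, h1, h2⟩ := 𝒰.directed U hU U' hU'
    exact ⟨W, hW, fun g s hs => by simp only [h g s (h1 hs), h' g s (h2 hs)]⟩
  · funext g
    simp only [d12_apply, chiRep_apply_of_triv hχ1, Pi.add_apply, cupF,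
      map_mul_of_mem_Z1 hχ1 hf, map_mul_of_mem_Z1 hχ1 hf']
    ring

theorem cupF_swap_mem_B2 {f f' : G → ZMod p} (hf : f ∈ Z1 𝒰 (chiRep χ))
    (hf' : f' ∈ Z1 𝒰 (chiRep χ)) (h : cupF f f' ∈ B2 𝒰 (chiRep χ)) :
    cupF f' f ∈ B2 𝒰 (chiRep χ) := by
  have h1 := cupF_add_swap_mem_B2 hχ1 hf hf'
  have h2 := Submodule.sub_mem _ h1 h
  rwa [add_sub_cancel_left] at h2

end Triv

lemma cupF_smul_right (j : ZMod p) (a b : G → ZMod p) : cupF a (fun g => j * b g) = j • cupF a b := by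
  funext g
  simp only [cupF, Pi.smul_apply, smul_eq_mul]
  ring

variable {Ω : Type} [Field Ω] [MulSemiringAction G Ω]

/-- **[CUP-CYC]** -/
theorem cyc_mem_B2_of_cupF {ζ : Ωˣ} (hζ : IsPrimitiveRoot ζ p) {χ : G →* (ZMod p)ˣ}
    (hχ : ∀ g, uAct G Ω g ζ = ζ ^ (χ g : ZMod p).val) {f : G → ZMod p} {b : Ωˣ}
    (hfb : ∀ g, muEmb ζ (f g) = Additive.ofMul (uAct G Ω g b / b))
    {α : G →* Multiplicative (ZMod p)} (hα : IsSmoothChar 𝒰 α)
    (hB : cupF f (toFn α) ∈ B2 𝒰 (chiRep χ)) :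
    cyc α (Additive.ofMul (b ^ p)) ∈ B2 𝒰 (uRep G Ω) := by
  have hp : p.Prime := Fact.out
  have hC : (fun g => Additive.ofMul (b ^ (α g).toAdd.val)) ∈ C1 ℤ (Additive Ωˣ) 𝒰 :=
    comp_char_mem_C1 hα (fun c => Additive.ofMul (b ^ c.toAdd.val))
  have hd : d12 (uRep G Ω) (fun g => Additive.ofMul (b ^ (α g).toAdd.val)) =
      muEmb ζ ∘ cupF f (toFn α) + cyc α (Additive.ofMul (b ^ p)) := by
    funext ⟨g, h⟩
    apply Additive.toMul.injective
    have hgb : uAct G Ω g b = ζ ^ (f g).val * b := by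
      have h1 : ζ ^ (f g).val = uAct G Ω g b / b := Additive.ofMul.injective (hfb g)
      rw [h1, div_mul_cancel]
    have hval := val_add_val (α g).toAdd (α h).toAdd
    have hζp : ζ ^ ((f g).val * (α h).toAdd.val) = ζ ^ (f g * (α h).toAdd).val := by
      rw [ZMod.val_mul]
      exact pow_eq_pow_mod _ hζ.pow_eq_one
    show uAct G Ω g (b ^ (α h).toAdd.val) / b ^ (α (g * h)).toAdd.val * b ^ (α g).toAdd.val =
      ζ ^ (f g * (α h).toAdd).val * (b ^ p) ^ carry (α g).toAdd (α h).toAdd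
    rw [map_pow, hgb, mul_pow, ← pow_mul, hζp, map_mul, toAdd_mul, div_mul_eq_mul_div, mul_assoc,
      ← pow_add, add_comm (α h).toAdd.val, hval, pow_add, pow_mul, mul_div_assoc,
      mul_div_cancel_left]
  have h1 : d12 (uRep G Ω) (fun g => Additive.ofMul (b ^ (α g).toAdd.val)) ∈ B2 𝒰 (uRep G Ω) :=
    Submodule.mem_map_of_mem hC
  have h2 := Submodule.sub_mem _ h1 (muEmb_comp_mem_B2 (𝒰 := 𝒰) hζ hχ hB)
  rwa [hd, add_sub_cancel_left] at h2

end Fermat.Agent.S56.G3
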