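import Fermat.Agent.S56.G3.Inst
import Fermat.Agent.S56.Loc.Min

/-!
# S56 / G3, WP G3-FROB : (M0), (M2), (M3) of G3/Main.lean (see the header there; repeated here).

(M0) `cycloChar p = 1` on `D_q` (`cycloChar_eq_one_of_mem_decomp`, G3/Inst.lean), so `chiK p k σ = 1` and `adTw p rbar σ = adRep rbar σ` for `σ ∈ D_q` (`Representation.twist_apply`).
(M2) `σ ∈ D_q` ⟹ `rbar σ = rbar φ ^ n`  [`hcont`: `rbar` factors through `L`; `exists_frob_pow_mul_inertia` (Tame/Main.lean): `σ = φ^n τ` on `L`, so `(φ^n τ)⁻¹ σ` fixes `L`,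
     `rbar σ = rbar (φ^n τ) = rbar φ ^ n`].
(M3) `c ∈ Z1loc (adRep rbar) q`, `σ ∈ I_q` ⟹ `c σ` commutes with `rbar φ`  [LOC-Q (1),(2): `h : I →* Multiplicative (sl2 k)`, `h σ = ofAdd (c σ)` (hom because `I` acts trivially on `sl2 k`);
     continuity: `c` is constant mod `U = F.fixingSubgroup.comap _`, `c 1 = 0`; `tame_frob` with `N = p` (`p • x = 0` in `sl2 k`): `c (φ σ φ⁻¹) = q • c σ = c σ` (`(q : k) = 1` as `p ∣ q - 1`);
     cocycle relation: `c (φ σ φ⁻¹) = c φ + φ (c σ) + φ σ (c φ⁻¹) = c φ + φ (c σ) + φ (c φ⁻¹) = φ (c σ) + c (φ φ⁻¹) = φ (c σ)`;  `φ ∈ decomp q` by `hφ.mem_decompositionSubgroup`, `conj_mem_inertia`.]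
-/

set_option autoImplicit false

open ExtCitation Polynomial

namespace Fermat.Agent.S56

open CFT (levS levAll decomp Z1 B1 B2 Qb chiRep cup11)

variable {p : ℕ} [Fact p.Prime] {k : Type} [Field k] [Finite k] [CharP k p]

namespace G3

/-- the local levels at `q` -/
noncomputable abbrev lq (q : Nat.Primes) : CFT.Levels ↥(decomp q) := levAll.comap (decomp q).subtype

/-- `μ_p` on `D_q` -/
noncomputable abbrev muq (p : ℕ) [Fact p.Prime] (q : Nat.Primes) : Representation (ZMod p) ↥(decomp q) (ZMod p) :=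
  chiRep ((cycloChar p).comp (decomp q).subtype)

/-- (M0) -/
theorem adTw_apply_of_mem_decomp (rbar : GQ →* M2 k) (q : Nat.Primes) (hq1 : p ∣ (q : ℕ) - 1) {σ : GQ}
    (hσ : σ ∈ decomp q) : adTw p rbar σ = adRep rbar σ := by
  have h1 : chiK p k σ = 1 := by
    rw [chiK, MonoidHom.comp_apply, cycloChar_eq_one_of_mem_decomp q hq1 hσ, map_one]
  ext w : 1
  rw [adTw, Representation.twist_apply_apply, h1, Units.val_one, one_smul]

/-- (M0) -/
theorem locRep_adTw_eq (rbar : GQ →* M2 k) (q : Nat.Primes) (hq1 : p ∣ (q : ℕ) - 1) :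
    locRep (adTw p rbar) q = locRep (adRep rbar) q := by
  ext σ : 1
  exact adTw_apply_of_mem_decomp rbar q hq1 σ.2

/-- (M2) -/
theorem exists_pow_of_mem_decomp (rbar : GQ →* M2 k) (hcont : GaloisFactorsThroughFiniteLevel rbar)
    (q : Nat.Primes) (hur : ∀ σ ∈ inert q, rbar σ = 1) (φ : GQ)
    (hφ : (primeLocalPlace q).IsFrobeniusAt φ (q : ℕ)) {σ : GQ} (hσ : σ ∈ decomp q) :
    ∃ n : ℕ, rbar σ = rbar φ ^ n := by
  obtain ⟨L, hLfin, hL⟩ := hcont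
  obtain ⟨n, τ, hτ, h⟩ := exists_frob_pow_mul_inertia q.2 (liesOverPrime_primeLocalPlace q) hφ L hσ
  refine ⟨n, ?_⟩
  have h1 : rbar ((φ ^ n * τ)⁻¹ * σ) = 1 := by
    refine hL _ (fun x hx => ?_)
    rw [AlgEquiv.mul_apply, h x hx, ← AlgEquiv.mul_apply, inv_mul_cancel]
    rfl
  have h2 : σ = (φ ^ n * τ) * ((φ ^ n * τ)⁻¹ * σ) := by rw [mul_inv_cancel_left]
  rw [h2, map_mul, h1, mul_one, map_mul, hur τ hτ, mul_one, map_pow]

/-- (M3) -/
theorem commute_of_mem_inert (rbar : GQ →* M2 k) (q : Nat.Primes) (hqp : (q : ℕ) ≠ p)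
    (hq1 : p ∣ (q : ℕ) - 1) (hur : ∀ σ ∈ inert q, rbar σ = 1) (φ : GQ)
    (hφ : (primeLocalPlace q).IsFrobeniusAt φ (q : ℕ))
    {c : ↥(decomp q) → sl2 k} (hc : c ∈ Z1loc (adRep rbar) q) (σ : ↥(decomp q))
    (hσ : (σ : GQ) ∈ inert q) : rbar φ * (c σ : M2 k) = (c σ : M2 k) * rbar φ := by
  have hp : p.Prime := Fact.out
  have hpW : ∀ w : ↥(sl2 k), p • w = 0 := by
    intro w
    rw [← Nat.cast_smul_eq_nsmul k, CharP.cast_eq_zero, zero_smul]
  have htriv : ∀ σ ∈ inert q, adRep rbar σ = 1 := by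
    intro σ hσ
    ext w : 2
    rw [adRep_apply_coe, hur σ hσ, hur σ⁻¹ (inv_mem hσ), one_mul, mul_one]
    rfl
  have h1 := LocQ.frob_fixed hp hqp hq1 hpW htriv hφ hc ⟨σ, hσ⟩
  have h2 := congrArg (fun w : ↥(sl2 k) => (w : M2 k)) h1
  simp only [adRep_apply_coe] at h2
  have h3 : rbar φ⁻¹ * rbar φ = 1 := by rw [← map_mul, inv_mul_cancel, map_one]
  change rbar φ * (c σ : M2 k) * rbar φ⁻¹ = (c σ : M2 k) at h2
  calc rbar φ * (c σ : M2 k) = rbar φ * (c σ : M2 k) * (rbar φ⁻¹ * rbar φ) := by rw [h3, mul_one]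
    _ = (rbar φ * (c σ : M2 k) * rbar φ⁻¹) * rbar φ := by rw [mul_assoc, mul_assoc, mul_assoc]
    _ = _ := by rw [h2]

end G3

end Fermat.Agent.S56
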