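import Fermat.Agent.S56.G3.LD0
import Fermat.Agent.CFT.T.LocalP

/-!
# S56 / G3, WP G3-INST : [LD0] for `D_q = decomp q`, `q ≡ 1 mod p`.

`LS.isLocSys_decomp q`, `IsLocSys.exists_resCard`, `HasResCard.exists_prime`: `Q = ℓ^f`, `v ℓ < 1`; `ℓ = q` because `v q < 1` too
(`LS.liesOverPrime_primeLocalPlace`; if `ℓ ≠ q` Bezout `a ℓ + b q = 1` in `ℤ` gives `v 1 < 1`).  `p ∣ q - 1 ∣ q^f - 1` (`Nat.sub_one_dvd_pow_sub_one` or `nat_sub_dvd_pow_sub_pow`).
`exists_zeta_sub p (decomp q)` (T/LocalP.lean) gives `ζ` and `hχ`.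
-/

set_option autoImplicit false

open ExtCitation

namespace Fermat.Agent.S56.G3

open Fermat.Agent.CFT Fermat.Agent.CFT.Br Fermat.Agent.CFT.LS

variable {p : ℕ} [Fact p.Prime]

theorem exists_resCard_decomp (q : Nat.Primes) (hq1 : p ∣ (q : ℕ) - 1) :
    ∃ Q : ℕ, HasResCard ↥(decomp q) (primeLocalPlace q).valuation Q ∧ p ∣ Q - 1 := by
  obtain ⟨Q, hQ⟩ := (LS.isLocSys_decomp q).exists_resCard
  refine ⟨Q, hQ, ?_⟩
  obtain ⟨ℓ, f, hℓ, hf, rfl, hv⟩ := hQ.exists_prime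
  have hq : (primeLocalPlace q).valuation ((q : ℕ) : Qb) < 1 :=
    (primeLocalPlace q).mem_nonunits_iff.mp (LS.liesOverPrime_primeLocalPlace q)
  have hℓq : ℓ = (q : ℕ) := by
    by_contra hne
    have hcop : IsCoprime (ℓ : ℤ) ((q : ℕ) : ℤ) :=
      Nat.isCoprime_iff_coprime.mpr ((Nat.coprime_primes hℓ q.2).mpr hne)
    obtain ⟨a, b, hab⟩ := hcop
    have h1 : (a : Qb) * (ℓ : Qb) + (b : Qb) * ((q : ℕ) : Qb) = 1 := by exact_mod_cast hab
    have ha : (primeLocalPlace q).valuation (a : Qb) ≤ 1 :=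
      ((primeLocalPlace q).valuation_le_one_iff _).mpr (intCast_mem _ a)
    have hb : (primeLocalPlace q).valuation (b : Qb) ≤ 1 :=
      ((primeLocalPlace q).valuation_le_one_iff _).mpr (intCast_mem _ b)
    have h2 : (primeLocalPlace q).valuation ((a : Qb) * (ℓ : Qb) + (b : Qb) * ((q : ℕ) : Qb)) < 1 := by
      refine Valuation.map_add_lt _ ?_ ?_
      · rw [map_mul]; exact (mul_le_of_le_one_left' ha).trans_lt hv
      · rw [map_mul]; exact (mul_le_of_le_one_left' hb).trans_lt hq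
    rw [h1, map_one] at h2
    exact lt_irrefl _ h2
  rw [hℓq]
  exact hq1.trans (Nat.sub_one_dvd_pow_sub_one _ f)

/-- the mod `p` cyclotomic character is trivial on `D_q` if `q ≡ 1 mod p` -/
theorem cycloChar_eq_one_of_mem_decomp (q : Nat.Primes) (hq1 : p ∣ (q : ℕ) - 1) {g : GQ}
    (hg : g ∈ decomp q) : cycloChar p g = 1 := by
  obtain ⟨Q, hQ, hpQ⟩ := exists_resCard_decomp (p := p) q hq1
  obtain ⟨ζ, hζ, hact⟩ := exists_zeta_sub p (decomp q)
  exact chi_eq_one_of_dvd hQ hpQ hζ hact ⟨g, hg⟩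

/-- **[LD0]** at `D_q` -/
theorem ld0_decomp (q : Nat.Primes) (hq1 : p ∣ (q : ℕ) - 1) {f : ↥(decomp q) → ZMod p}
    (hf : f ∈ Z1 (levAll.comap (decomp q).subtype) (chiRep ((cycloChar p).comp (decomp q).subtype)))
    (H : ∀ α ∈ Z1 (levAll.comap (decomp q).subtype) (chiRep ((cycloChar p).comp (decomp q).subtype)),
      cupF α f ∈ B2 (levAll.comap (decomp q).subtype) (chiRep ((cycloChar p).comp (decomp q).subtype))) :
    f = 0 := by
  obtain ⟨Q, hQ, hpQ⟩ := exists_resCard_decomp (p := p) q hq1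
  obtain ⟨ζ, hζ, hact⟩ := exists_zeta_sub p (decomp q)
  exact ld0 (LS.isLocSys_decomp q) hQ hpQ hζ hact hf H

end Fermat.Agent.S56.G3
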