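import Fermat.Agent.S56.G3.UnitUr

/-!
# S56 / G3 : [LD0] non-degeneracy of the cup product `Hom(G,𝔽_p) × Hom(G,𝔽_p) → H²(G,μ_p)` for a local system with `p ∣ Q - 1`.

`f ∈ Hom(G,𝔽_p)` with `α ∪ f ∈ B²` for all `α`  ⟹  `f = 0`.
PROOF. Kummer: `g b / b = ζ^(f g)`, `y = b^p ∈ k`.  `α = ur`: [ANTI] + [CUP-CYC] give `(ur, y) ∈ B²(Ωˣ)`, so `v y = v y'^p` (`val_of_cyc_mem_B2`); replace `b` by `b / y'`:
`v b = 1`.  [G3-UNIT]: `f = j ur`.  If `j ≠ 0`: `α = f_π` (Kummer character of a uniformiser): `f_π ∪ ur ∈ B²`, [CUP-CYC]: `(ur, π) ∈ B²(Ωˣ)`, contradicting `cyc_unif_pow_mem_B2_iff`.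
-/

set_option autoImplicit false

namespace Fermat.Agent.S56.G3

open Fermat.Agent.CFT Fermat.Agent.CFT.Br Fermat.Agent.CFT.LS

variable {G : Type} [Group G] {𝒰 : Levels G} {p : ℕ} [Fact p.Prime]
  {Ω : Type} [Field Ω] [MulSemiringAction G Ω] [IsAlgClosed Ω] [CharZero Ω]
  {Γ₀ : Type} [LinearOrderedCommGroupWithZero Γ₀] {v : Valuation Ω Γ₀}

/-- **[LD0]** -/
theorem ld0 (h : IsLocSys 𝒰 v) {Q : ℕ} (hQ : HasResCard G v Q) (hpQ : p ∣ Q - 1)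
    {ζ : Ωˣ} (hζ : IsPrimitiveRoot ζ p) {χ : G →* (ZMod p)ˣ}
    (hχ : ∀ g, uAct G Ω g ζ = ζ ^ (χ g : ZMod p).val)
    {f : G → ZMod p} (hf : f ∈ Z1 𝒰 (chiRep χ))
    (H : ∀ α ∈ Z1 𝒰 (chiRep χ), cupF α f ∈ B2 𝒰 (chiRep χ)) : f = 0 := by
  have hp : p.Prime := Fact.out
  have : NeZero p := ⟨hp.ne_zero⟩
  have hχ1 := chi_eq_one_of_dvd hQ hpQ hζ hχ
  obtain ⟨ur, hur⟩ := h.exists_urChar hQ p
  obtain ⟨b, hb, hfb⟩ := kummer_Z1 h.gal hζ hχ hf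
  have hurZ : toFn ur ∈ Z1 𝒰 (chiRep χ) := toFn_mem_Z1 hχ1 hur.smooth
  have h1 : cupF f (toFn ur) ∈ B2 𝒰 (chiRep χ) := cupF_swap_mem_B2 hχ1 hurZ hf (H _ hurZ)
  have h2 := cyc_mem_B2_of_cupF hζ hχ hfb hur.smooth h1
  obtain ⟨y', hy', hvy⟩ := hur.val_of_cyc_mem_B2 h hQ hb h2
  have hy0 : y' ≠ 0 := by
    rintro rfl
    rw [map_zero, zero_pow hp.ne_zero] at hvy
    exact (b ^ p).ne_zero ((Valuation.zero_iff v).1 hvy)
  have hyfix : Units.mk0 y' hy0 ∈ fixU G Ω := (mem_fixU_iff _).2 hy'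
  set b1 : Ωˣ := b / Units.mk0 y' hy0 with hb1def
  have hb1 : b1 ^ p ∈ fixU G Ω := by
    rw [hb1def, div_pow]
    exact (fixU G Ω).div_mem hb ((fixU G Ω).pow_mem hyfix p)
  have hv1 : v (b1 : Ω) = 1 := by
    have h3 : v (b1 : Ω) ^ p = 1 := by
      rw [← map_pow, ← Units.val_pow_eq_pow_val, hb1def, div_pow, Units.val_div_eq_div_val, map_div₀,
        hvy, Units.val_pow_eq_pow_val, Units.val_mk0, map_pow]
      exact div_self (pow_ne_zero _ ((Valuation.ne_zero_iff v).2 hy0))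
    exact (pow_eq_one_iff_of_nonneg zero_le hp.ne_zero).1 h3
  have hfb1 : ∀ g, muEmb ζ (f g) = Additive.ofMul (uAct G Ω g b1 / b1) := by
    intro g
    rw [hfb g, hb1def, (uAct G Ω g).map_div, hyfix g, div_div_div_cancel_right]
  obtain ⟨j, hj⟩ := exists_mul_ur h hQ hpQ hζ hur hb1 hv1 hfb1
  by_cases hj0 : j = 0
  · funext g
    rw [hj g, hj0, zero_mul]
    rfl
  exfalso
  obtain ⟨π, hπ⟩ := h.disc
  obtain ⟨β, hβ⟩ := IsAlgClosed.exists_pow_nat_eq π hp.pos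
  have hβ0 : β ≠ 0 := by
    rintro rfl
    rw [zero_pow hp.ne_zero] at hβ
    exact hπ.2.1 hβ.symm
  have hβπ : (Units.mk0 β hβ0) ^ p = Units.mk0 π hπ.2.1 := by
    apply Units.ext
    rw [Units.val_pow_eq_pow_val]
    exact hβ
  have hπfix : Units.mk0 π hπ.2.1 ∈ fixU G Ω := (mem_fixU_iff _).2 hπ.1
  obtain ⟨fπ, hfπZ, hfπ⟩ := kummer_Z1_exists h.gal hζ hχ (b := Units.mk0 β hβ0) (by rw [hβπ]; exact hπfix)
  have h3 := H fπ hfπZ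
  have hfj : f = fun g => j * toFn ur g := funext hj
  rw [hfj, cupF_smul_right] at h3
  have h4 : cupF fπ (toFn ur) ∈ B2 𝒰 (chiRep χ) := by
    have := Submodule.smul_mem _ j⁻¹ h3
    rwa [smul_smul, inv_mul_cancel₀ hj0, one_smul] at this
  have h5 := cyc_mem_B2_of_cupF hζ hχ hfπ hur.smooth h4
  rw [hβπ] at h5
  have h6 := (hur.cyc_unif_pow_mem_B2_iff h hQ (π := Units.mk0 π hπ.2.1) hπ 1).1 (by rwa [pow_one])
  exact hp.one_lt.ne' (Nat.dvd_one.1 h6)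

end Fermat.Agent.S56.G3
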