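import Fermat.Agent.S56.G3.Frob

/-!
# S56 / G3, WP G3-PAIR : (M4) of G3/Main.lean: the cocycles `α • h` and their cup products (formal).

`h ∈ sl2 k` commuting with `rbar σ` for all `σ ∈ D_q` (so `adRep rbar σ h = h`), `α ∈ Hom(D_q,𝔽_p)` (= `Z1 (lq q) (muq p q)`; the action is trivial by `cycloChar_eq_one_of_mem_decomp`; `map_mul_of_mem_Z1`, G3/Cup.lean).
* `map_cast_mul`: `castHom n = (n.val : k)`, `(m : k) * x = m • x`, `t (m • x) = m • t x`.
* `aOf q α h g = α g • h` is a cocycle, level-constant because `α` is.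
* `(aOf ∪ b)(g,h') = tr (α g • h * (χ g • rbar g * b h' * rbar g⁻¹)) = α g * tr (h * b h')` (`adTw_apply_of_mem_decomp`, `h` commutes with `rbar g`, `Matrix.trace_mul_comm`).
* `g ↦ t (tr (h * b g))` is additive (`b (g g') = b g + rbar g * b g' * rbar g⁻¹`) and level-constant.
-/

set_option autoImplicit false

open ExtCitation Polynomial

namespace Fermat.Agent.S56

open CFT (levS levAll decomp Z1 B1 B2 Qb chiRep cup11)

variable {p : ℕ} [Fact p.Prime] {k : Type} [Field k] [Finite k] [CharP k p]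

namespace G3

/-- additive maps are `ZMod p`-linear -/
theorem map_cast_mul (t : k →+ ZMod p) (n : ZMod p) (x : k) :
    t (ZMod.castHom (dvd_refl p) k n * x) = n * t x := by
  obtain ⟨m, rfl⟩ : ∃ m : ℕ, (m : ZMod p) = n := ⟨n.val, ZMod.natCast_zmod_val n⟩
  rw [map_natCast, ← nsmul_eq_mul, map_nsmul, nsmul_eq_mul]

omit [Finite k] [CharP k p] [Fact p.Prime] in
/-- `h` is fixed by the adjoint action -/
theorem adRep_apply_of_commute (rbar : GQ →* M2 k) {h : sl2 k} {σ : GQ}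
    (hh : rbar σ * (h : M2 k) = (h : M2 k) * rbar σ) : adRep rbar σ h = h := by
  apply Subtype.ext
  rw [adRep_apply_coe, hh, mul_assoc, rbar_mul_inv, mul_one]

omit [Finite k] [CharP k p] [Fact p.Prime] in
/-- the trace pairing with a fixed vector is invariant -/
theorem trP_adRep_of_commute (rbar : GQ →* M2 k) {h : sl2 k} {σ : GQ}
    (hh : rbar σ * (h : M2 k) = (h : M2 k) * rbar σ) (b : sl2 k) :
    trP k h (adRep rbar σ b) = trP k h b := by
  rw [trP_apply, trP_apply, adRep_apply_coe, ← mul_assoc, ← mul_assoc, ← hh, Matrix.trace_mul_comm,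
    ← mul_assoc, ← mul_assoc, rbar_inv_mul, one_mul]

theorem muq_triv (q : Nat.Primes) (hq1 : p ∣ (q : ℕ) - 1) (g : ↥(decomp q)) :
    ((cycloChar p).comp (decomp q).subtype) g = 1 :=
  cycloChar_eq_one_of_mem_decomp q hq1 g.2

/-- (M4) the cocycle `α • h` -/
noncomputable def aOf (q : Nat.Primes) (α : ↥(decomp q) → ZMod p) (h : sl2 k) : ↥(decomp q) → sl2 k :=
  fun g => ZMod.castHom (dvd_refl p) k (α g) • h

/-- (M4) -/
theorem aOf_mem_Z1loc (rbar : GQ →* M2 k) (q : Nat.Primes) (hq1 : p ∣ (q : ℕ) - 1)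
    {α : ↥(decomp q) → ZMod p} (hα : α ∈ Z1 (lq q) (muq p q)) {h : sl2 k}
    (hh : ∀ σ ∈ decomp q, rbar σ * (h : M2 k) = (h : M2 k) * rbar σ) :
    aOf q α h ∈ Z1loc (adRep rbar) q := by
  refine ⟨LinearMap.mem_ker.2 ?_, ?_⟩
  · funext ⟨g, s⟩
    rw [CFT.d12_apply]
    change adRep rbar g (aOf q α h s) - aOf q α h (g * s) + aOf q α h g = 0
    rw [aOf, aOf, aOf, map_smul, adRep_apply_of_commute rbar (hh g g.2),
      map_mul_of_mem_Z1 (muq_triv q hq1) hα, map_add, add_smul]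
    abel
  · obtain ⟨U, hU, hs⟩ := hα.2
    exact ⟨U, hU, fun g s hsU => by rw [aOf, aOf, hs g s hsU]⟩

/-- (M4) -/
theorem t_cup11_aOf (rbar : GQ →* M2 k) (q : Nat.Primes) (hq1 : p ∣ (q : ℕ) - 1) (t : k →+ ZMod p)
    (α : ↥(decomp q) → ZMod p) {h : sl2 k}
    (hh : ∀ σ ∈ decomp q, rbar σ * (h : M2 k) = (h : M2 k) * rbar σ) (b : ↥(decomp q) → sl2 k) :
    (fun g => t (cup11 (locRep (adTw p rbar) q) (trP k) (aOf q α h) b g)) =
      cupF α (fun g => t (trP k h (b g))) := by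
  funext g
  rw [cup11, cupF, aOf, map_smul, LinearMap.smul_apply, smul_eq_mul, map_cast_mul]
  congr 2
  change trP k h (adTw p rbar g.1 (b g.2)) = _
  rw [adTw_apply_of_mem_decomp rbar q hq1 g.1.2, trP_adRep_of_commute rbar (hh g.1 g.1.2)]

/-- (M4) -/
theorem t_trP_mem_Z1 (rbar : GQ →* M2 k) (q : Nat.Primes) (hq1 : p ∣ (q : ℕ) - 1) (t : k →+ ZMod p)
    {h : sl2 k} (hh : ∀ σ ∈ decomp q, rbar σ * (h : M2 k) = (h : M2 k) * rbar σ)
    {b : ↥(decomp q) → sl2 k} (hb : b ∈ Z1loc (adRep rbar) q) :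
    (fun g => t (trP k h (b g))) ∈ Z1 (lq q) (muq p q) := by
  refine ⟨LinearMap.mem_ker.2 ?_, ?_⟩
  · funext ⟨g, s⟩
    rw [CFT.d12_apply, chiRep_apply_of_triv (muq_triv q hq1)]
    change t (trP k h (b s)) - t (trP k h (b (g * s))) + t (trP k h (b g)) = 0
    rw [LocQ.coc_mul hb, map_add, map_add, trP_adRep_of_commute rbar (hh g g.2)]
    abel
  · obtain ⟨U, hU, hs⟩ := hb.2
    exact ⟨U, hU, fun g s hsU => by simp only [hs g s hsU]⟩

end G3

end Fermat.Agent.S56
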