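import Fermat.Agent.S56.G3.Cup

/-!
# S56 / G3, WP G3-UNIT : the Kummer character of a unit is a multiple of the unramified character (`p ∣ Q - 1`).

Local system `(G,𝒰,Ω,v)`, residue cardinality `Q`, `p ∣ Q - 1` (so `v p = 1`, `μ_p ⊆ k = Ω^G`), `ur` the unramified character of degree `p`.
`b ∈ Ωˣ`, `v b = 1`, `u := b^p ∈ k`, `g b / b = ζ ^ f g`.  CLAIM: `f = j * ur` for some `j : ZMod p`.
PROOF. (1) `v (u^Q - u) < 1` (`hQ.pow`), `HasResCard.exists_fix_near`: `t ∈ k`, `t^Q = t`, `v (u - t) < 1`; `v t = 1`, so `t ≠ 0`, `t^(Q-1) = 1`.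
(2) `x := u / t ∈ k`, `v (x - 1) < 1 = v p * v (ζ - 1)` [`v p = 1`: `p ∣ Q - 1`, `v Q < 1` so `v (Q - 1) = 1`, all naturals have `v ≤ 1`
 (`val_natCast_le_one`); `v (ζ - 1) = 1`: `val_sub_eq_one_of_roots` (LS/Basic.lean) with `m = p`].  `LS.hensel_root`: `z ∈ k`, `z^p = x`.
(3) choose `ω` with `ω^p = t` (`IsAlgClosed.exists_pow_nat_eq`).  `(b / (ω z))^p = 1`, so `b = ω z ζ^i` (`IsPrimitiveRoot.eq_pow_of_pow_eq_one`), and `z`, `ζ` are fixed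
 (`ζ^(Q-1) = 1`, `hQ.root`): `g b / b = g ω / ω`.
(4) `ω^(p (Q-1)) = 1` and `p (Q - 1) ∣ Q^p - 1` [`Q^p - 1 = (Q - 1) ∑_{i<p} Q^i`, `∑_{i<p} Q^i ≡ p ≡ 0 mod p`], so `hur.spec`: `g ω = ω^(Q^n)`, `n = [ur g]`.
(5) `ξ := ω^(Q-1)`, `ξ^p = 1`, `ξ = ζ^j`.  `g ω / ω = ω^(Q^n - 1) = ξ^(∑_{i<n} Q^i) = ξ^n` (`Q ≡ 1 mod p`).  So `ζ^(f g) = ζ^(j n)`, `f g = j * ur g` (`muEmb_injective`).
-/

set_option autoImplicit false

namespace Fermat.Agent.S56.G3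

open Fermat.Agent.CFT Fermat.Agent.CFT.Br Fermat.Agent.CFT.LS

variable {G : Type} [Group G] {𝒰 : Levels G} {p : ℕ} [Fact p.Prime]
  {Ω : Type} [Field Ω] [MulSemiringAction G Ω] [IsAlgClosed Ω] [CharZero Ω]
  {Γ₀ : Type} [LinearOrderedCommGroupWithZero Γ₀] {v : Valuation Ω Γ₀}

/-- `μ_p ⊆ k` -/
theorem uAct_zeta_of_dvd {Q : ℕ} (hQ : HasResCard G v Q) (hpQ : p ∣ Q - 1) {ζ : Ωˣ}
    (hζ : IsPrimitiveRoot ζ p) (g : G) : uAct G Ω g ζ = ζ := by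
  obtain ⟨m, hm⟩ := hpQ
  apply Units.ext
  refine hQ.root (ζ : Ω) ?_ g
  rw [hm, pow_mul, ← Units.val_pow_eq_pow_val, hζ.pow_eq_one]
  simp

/-- the cyclotomic character is trivial -/
theorem chi_eq_one_of_dvd {Q : ℕ} (hQ : HasResCard G v Q) (hpQ : p ∣ Q - 1) {ζ : Ωˣ}
    (hζ : IsPrimitiveRoot ζ p) {χ : G →* (ZMod p)ˣ}
    (hχ : ∀ g, uAct G Ω g ζ = ζ ^ (χ g : ZMod p).val) (g : G) : χ g = 1 := by
  have hp : p.Prime := Fact.out
  have h1 : ζ ^ 1 = ζ ^ (χ g : ZMod p).val := by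
    rw [pow_one, ← hχ g, uAct_zeta_of_dvd hQ hpQ hζ g]
  have h2 := hζ.pow_inj hp.one_lt (ZMod.val_lt _) h1
  apply Units.ext
  rw [← ZMod.natCast_zmod_val (χ g : ZMod p), ← h2]
  simp

theorem val_p_eq_one {Q : ℕ} (hQ : HasResCard G v Q) (hpQ : p ∣ Q - 1) : v (p : Ω) = 1 := by
  obtain ⟨m, hm⟩ := hpQ
  have h1 := hQ.val_pow_sub_one (n := 1) one_ne_zero
  rw [pow_one, hm, Nat.cast_mul, map_mul] at h1
  refine le_antisymm (val_natCast_le_one v p) ?_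
  rw [← h1]
  exact mul_le_of_le_one_right' (val_natCast_le_one v m)

/-- `∑_{i<n} Q^i ≡ n` mod `p`. -/
theorem geomSum_modEq {Q : ℕ} (hQ1 : 1 ≤ Q) (hpQ : p ∣ Q - 1) (n : ℕ) :
    ∑ i ∈ Finset.range n, Q ^ i ≡ n [MOD p] := by
  rw [← ZMod.natCast_eq_natCast_iff]
  have hQp : ((Q : ℕ) : ZMod p) = 1 := by
    have h1 : ((Q - 1 : ℕ) : ZMod p) = 0 := (ZMod.natCast_eq_zero_iff _ _).mpr hpQ
    rw [Nat.cast_sub hQ1, Nat.cast_one, sub_eq_zero] at h1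
    exact h1
  push_cast
  rw [hQp]
  simp

/-- **[G3-UNIT]** -/
theorem exists_mul_ur (h : IsLocSys 𝒰 v) {Q : ℕ} (hQ : HasResCard G v Q) (hpQ : p ∣ Q - 1)
    {ζ : Ωˣ} (hζ : IsPrimitiveRoot ζ p) {ur : G →* Multiplicative (ZMod p)}
    (hur : IsUrChar Ω 𝒰 Q p ur) {f : G → ZMod p} {b : Ωˣ} (hb : b ^ p ∈ fixU G Ω)
    (hv : v (b : Ω) = 1) (hfb : ∀ g, muEmb ζ (f g) = Additive.ofMul (uAct G Ω g b / b)) :
    ∃ j : ZMod p, ∀ g, f g = j * toFn ur g := by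
  have hp : p.Prime := Fact.out
  have hQ1 : 1 ≤ Q := hQ.one_lt.le
  have hQQ : Q - 1 + 1 = Q := Nat.sub_add_cancel hQ1
  have hζΩ : IsPrimitiveRoot (ζ : Ω) p := IsPrimitiveRoot.coe_units_iff.mpr hζ
  have hvp : v (p : Ω) = 1 := val_p_eq_one hQ hpQ
  have hζfix : Fix G (ζ : Ω) := fun g => congrArg Units.val (uAct_zeta_of_dvd hQ hpQ hζ g)
  -- (1)
  set u : Ω := (b : Ω) ^ p with hu
  have hufix : Fix G u := by
    have := (mem_fixU_iff (b ^ p)).mp hb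
    rwa [Units.val_pow_eq_pow_val] at this
  have hvu : v u = 1 := by rw [hu, map_pow, hv, one_pow]
  obtain ⟨t, htfix, htQ, hvt⟩ := hQ.exists_fix_near (hQ.pow u hufix hvu.le)
  have hvt1 : v t = 1 := by
    have h1 : v (u - (u - t)) = v u := Valuation.map_sub_eq_of_lt_left v (by rw [hvu]; exact hvt)
    rwa [sub_sub_cancel, hvu] at h1
  have ht0 : t ≠ 0 := by
    rintro rfl
    simp at hvt1
  have htQ1 : t ^ (Q - 1) = 1 := by
    have h1 : t ^ (Q - 1) * t = 1 * t := by rw [← pow_succ, hQQ, htQ, one_mul]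
    exact mul_right_cancel₀ ht0 h1
  -- (2)
  have hxfix : Fix G (u / t) := fun g => by
    have := map_div₀ (MulSemiringAction.toRingHom G Ω g) u t
    simp only [MulSemiringAction.toRingHom_apply] at this
    rw [this, hufix g, htfix g]
  have hvx : v (u / t - 1) < v (p : Ω) * v ((ζ : Ω) - 1) := by
    have h1 : v ((ζ : Ω) - 1) = 1 :=
      val_sub_eq_one_of_roots hvp hζΩ.pow_eq_one (one_pow p) (hζΩ.ne_one hp.one_lt)
    have h2 : u / t - 1 = (u - t) / t := by field_simp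
    rw [hvp, h1, one_mul, h2, map_div₀, hvt1, div_one]
    exact hvt
  obtain ⟨z, hzfix, hzp, -⟩ := hensel_root h.inv hp hζΩ hxfix hvx
  have hu0 : u ≠ 0 := by
    rintro h0
    rw [h0] at hvu
    simp at hvu
  have hz0 : z ≠ 0 := by
    rintro rfl
    rw [zero_pow hp.ne_zero] at hzp
    exact div_ne_zero hu0 ht0 hzp.symm
  -- (3)
  obtain ⟨ω, hω⟩ := IsAlgClosed.exists_pow_nat_eq t hp.pos
  have hω0 : ω ≠ 0 := by
    rintro rfl
    rw [zero_pow hp.ne_zero] at hω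
    exact ht0 hω.symm
  haveI : NeZero p := ⟨hp.ne_zero⟩
  obtain ⟨i, -, hi⟩ := hζΩ.eq_pow_of_pow_eq_one (ξ := (b : Ω) / (ω * z)) (by
    rw [div_pow, mul_pow, hω, hzp, ← hu]
    field_simp)
  have hb' : (b : Ω) = ω * z * (ζ : Ω) ^ i := by
    rw [hi]
    field_simp
  -- (4)
  have hωQ : ω ^ (Q ^ p - 1) = 1 := by
    have h1 := geom_sum_mul_add (Q - 1) p
    rw [hQQ] at h1
    obtain ⟨m, hm⟩ : p ∣ ∑ i ∈ Finset.range p, Q ^ i :=
      (Nat.modEq_zero_iff_dvd).mp ((geomSum_modEq hQ1 hpQ p).trans (by simp [Nat.ModEq]))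
    have h2 : Q ^ p - 1 = p * ((Q - 1) * m) := by
      rw [← h1, hm, Nat.add_sub_cancel]
      ring
    rw [h2, pow_mul, hω, pow_mul, htQ1, one_pow]
  -- (5)
  obtain ⟨j, -, hj⟩ := hζΩ.eq_pow_of_pow_eq_one (ξ := ω ^ (Q - 1)) (by
    rw [← pow_mul, mul_comm, pow_mul, hω, htQ1])
  refine ⟨(j : ZMod p), fun g => ?_⟩
  set n : ℕ := (ur g).toAdd.val with hn
  have hgω : g • ω = (ζ : Ω) ^ (j * ∑ i ∈ Finset.range n, Q ^ i) * ω := by
    rw [hur.spec g ω hωQ, ← hn]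
    have h1 := geom_sum_mul_add (Q - 1) n
    rw [hQQ] at h1
    rw [← h1, pow_succ, mul_comm _ (Q - 1), pow_mul, ← hj, ← pow_mul]
  have hgb : g • (b : Ω) = (ζ : Ω) ^ (j * ∑ i ∈ Finset.range n, Q ^ i) * (b : Ω) := by
    rw [hb', smul_mul', smul_mul', smul_pow', hzfix g, hζfix g, hgω]
    ring
  have h1 : ζ ^ (f g).val = ζ ^ (j * ∑ i ∈ Finset.range n, Q ^ i) := by
    have h2 : ζ ^ (f g).val = uAct G Ω g b / b := Additive.ofMul.injective (hfb g)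
    rw [h2, div_eq_iff_eq_mul]
    apply Units.ext
    rw [coe_uAct, hgb]
    simp
  rw [pow_eq_pow_iff_modEq, ← hζ.eq_orderOf] at h1
  have h3 : (f g).val ≡ j * n [MOD p] := h1.trans ((geomSum_modEq hQ1 hpQ n).mul_left j)
  rw [← ZMod.natCast_eq_natCast_iff, ZMod.natCast_zmod_val] at h3
  rw [h3, Nat.cast_mul, hn, ZMod.natCast_zmod_val]
  rfl

end Fermat.Agent.S56.G3
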